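import Fermat.Agent.S30.Branch.Refined
import Fermat.Agent.S24.Modular.M4
import Fermat.Agent.S24.Modular.M5
import Fermat.Agent.S24.Modular.M7
import Fermat.Agent.Lib.Gamma0Cusps

set_option autoImplicit false
set_option linter.dupNamespace false
set_option linter.style.haveILetI false

/-!
Per-place ramification indices of `F_N / ℚ̄(j)` (modular input (ii) of the S30 model theorem,
places form).  For every place `v` of `F_N = ℚ̄(j(q^d) : d ∣ N)` over `ℚ̄`:

* `ord_eq_one_generic` : over `j = a`, `a ≠ 0, 1728`, the ramification index is `1`;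
* `ord_dvd_three`      : over `j = 0` it divides `3`;
* `ord_dvd_two`        : over `j = 1728` it divides `2`;
* `ord_dvd_level`      : at a pole of `j` (a cusp) it divides `N`.

Proof: the refined fibre count (`Branch.ord_eq_card_orbit`): the ramification index is the size
of an orbit of `1`, `ST`, `S`, `T` on `SL(2,ℤ) ⧸ Γ₀(N)`.
-/

noncomputable section

namespace Fermat.Agent.S30.Branch

open ModularCurve AlgebraicCurve IntermediateField CongruenceSubgroup UpperHalfPlane HahnSeries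
open Fermat.Agent.S24 Fermat.Agent.S24.Modular
open Fermat.Agent.S24.HolH Fermat.Agent.S24.JHol Fermat.Agent.S24.JFun
open Fermat.Agent.S24.Puiseux Fermat.Agent.S24.Cusp
open scoped MatrixGroups

/-- The size of a cyclic orbit divides every exponent acting trivially on the point. -/
theorem card_orbit_zpowers_dvd {G X : Type*} [Group G] [MulAction G X] (g : G) (x : X) (p : ℕ)
    (hp : g ^ p • x = x) : Nat.card (MulAction.orbit (Subgroup.zpowers g) x) ∣ p := by
  rw [Nat.card_congr (MulAction.orbitZPowersEquiv g x), Nat.card_zmod]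
  apply Function.IsPeriodicPt.minimalPeriod_dvd
  show (g • ·)^[p] x = x
  rw [smul_iterate]
  exact hp

/-- Refined form of `S24.Modular.card_fibre_of_thetaData`: the ramification index of a place over
`j = a` is the size of a `⟨g⟩`-orbit on `SL(2,ℤ) ⧸ Γ₀(N)`. -/
theorem ord_fibre_of_thetaData {N : ℕ} [NeZero N] (D : ThetaData N) (a : Kbar) (τ0 : ℍ)
    (g : SL(2, ℤ)) (s : ℕ) (hs : 0 < s)
    (hord : ordZ τ0 (jHol - algebraMap ℂ HolH (D.emb a)) = s)
    (hfix : g • τ0 = τ0)
    (hrot : ∀ f : HolH, f ≠ 0 → compSL g f = f → (s : ℤ) ∣ ordZ τ0 f)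
    (hper : ∀ i : SL(2, ℤ) ⧸ Gamma0 N, g • i ≠ i → s ∣ Function.minimalPeriod (g • ·) i)
    (v : Place Kbar (FN N)) (hv : 0 < v.ord (jF N - algebraMap Kbar (FN N) a)) :
    ∃ i : SL(2, ℤ) ⧸ Gamma0 N, v.ord (jF N - algebraMap Kbar (FN N) a)
      = Nat.card (MulAction.orbit (Subgroup.zpowers g) i) := by
  classical
  letI : Fintype (SL(2, ℤ) ⧸ Gamma0 N) := Fintype.ofFinite _
  have htr := trdeg_FN N
  have hx0 := transcendental_jF N
  have hx := Fermat.Agent.S24.AdjoinShift.transcendental_sub_algebraMap hx0 a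
  have hfin0 : FiniteDimensional Kbar⟮jF N⟯ (FN N) :=
    Fermat.Agent.S24.FF.finite_adjoin_simple htr hx0
  have hfin := Fermat.Agent.S24.AdjoinShift.finiteDimensional_sub_algebraMap (jF N) a hfin0
  have hginv : g⁻¹ • τ0 = τ0 := by
    conv_lhs => rw [← hfix]
    rw [inv_smul_smul]
  refine ord_eq_card_orbit htr (jF N - algebraMap Kbar (FN N) a) hx hfin
    D.F₀ D.hF₀ (D.num a) 1 one_ne_zero (by simp [ThetaData.num]) (ordZ τ0)
    (fun a b ha hb => ordZ_mul τ0 ha hb) (fun a b ha hb hab => min_le_ordZ_add τ0 ha hb hab)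
    D.ρ D.ρ_injective D.ρ_ne ?_ ?_ ?_ ?_ ?_ s hs ?_ g ?_ ?_ v hv
  · rw [Fermat.Agent.S24.AdjoinShift.finrank_sub_algebraMap, finrank_jF, ← Nat.card_eq_fintype_card,
      Fermat.Agent.S24.Comb.card_quotient_Gamma0]
  · intro i j c
    rw [D.ρ_const, D.ρ_const]
  · intro i j
    rw [D.ρ_num, D.ρ_num]
  · intro i j
    rw [map_one, map_one]
  · intro i c hc
    rw [D.ρ_const]
    exact ordZ_algebraMap ((map_ne_zero_iff _ D.emb.injective).mpr hc)
  · intro i
    rw [D.ρ_num, map_one, ordZ_one, hord, sub_zero]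
  · intro i f
    rw [D.ρ_smul, ordZ_compSL, hginv]
  · intro i f hf
    have hf0 : D.ρ i f ≠ 0 := (map_ne_zero_iff _ (D.ρ_injective i)).mpr hf
    by_cases hi : g • i = i
    · have h1 : compSL g⁻¹ (D.ρ i f) = D.ρ i f := by rw [← D.ρ_smul, hi]
      have h2 : compSL g (D.ρ i f) = D.ρ i f := compSL_eq_self_of_inv h1
      exact Dvd.dvd.mul_right (hrot _ hf0 h2) _
    · have h1 : (s : ℤ) ∣ (Function.minimalPeriod (g • ·) i : ℤ) := by
        exact_mod_cast hper i hi
      exact Dvd.dvd.mul_left h1 _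

/-- **Generic points are unramified**: over `j = a`, `a ≠ 0, 1728`, every place of `F_N` has
ramification index `1`. -/
theorem ord_eq_one_generic (N : ℕ) [NeZero N] (a : Kbar) (h0 : a ≠ 0) (h1 : a ≠ 1728)
    (v : Place Kbar (FN N)) (hv : 0 < v.ord (jF N - algebraMap Kbar (FN N) a)) :
    v.ord (jF N - algebraMap Kbar (FN N) a) = 1 := by
  have hc0 : (thetaData N).emb a ≠ 0 := (map_ne_zero (thetaData N).emb).mpr h0
  have hc1 : (thetaData N).emb a ≠ 1728 := by
    intro h
    apply h1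
    apply (thetaData N).emb.injective
    rw [h, map_ofNat]
  obtain ⟨τ0, -, hτ0⟩ := exists_ordZ_jHol_sub_eq_one hc0 hc1
  obtain ⟨i, hi⟩ := ord_fibre_of_thetaData (thetaData N) a τ0 (1 : SL(2, ℤ)) 1 one_pos
    (by rw [hτ0]; rfl) (one_smul _ _)
    (fun f _ _ => one_dvd _) (fun i hi => absurd (one_smul _ i) hi) v hv
  have hd := card_orbit_zpowers_dvd (1 : SL(2, ℤ)) i 1 (by simp)
  rw [hi]
  exact_mod_cast Nat.dvd_one.mp hd

/-- **Over `j = 1728`** the ramification index of every place of `F_N` divides `2`. -/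
theorem ord_dvd_two (N : ℕ) [NeZero N] (v : Place Kbar (FN N))
    (hv : 0 < v.ord (jF N - algebraMap Kbar (FN N) 1728)) :
    v.ord (jF N - algebraMap Kbar (FN N) 1728) ∣ 2 := by
  have hord : ordZ UpperHalfPlane.I (jHol - algebraMap ℂ HolH ((thetaData N).emb 1728))
      = ((2 : ℕ) : ℤ) := by
    rw [map_ofNat]
    exact ordZ_jHol_sub_I
  obtain ⟨i, hi⟩ := ord_fibre_of_thetaData (thetaData N) 1728 UpperHalfPlane.I ModularGroup.S 2
    (by norm_num) hord S_smul_I
    (fun f hf hinv => two_dvd_ordZ_of_S_fixed S_smul_I hf hinv)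
    (dvd_minimalPeriod_of_pow_smul _ 2 Nat.prime_two
      (fun i => by rw [S_pow_two_eq_neg_one]; exact neg_one_smul_coset N i)) v hv
  have hd := card_orbit_zpowers_dvd ModularGroup.S i 2
    (by rw [S_pow_two_eq_neg_one]; exact neg_one_smul_coset N i)
  rw [hi]
  exact_mod_cast hd

/-- **Over `j = 0`** the ramification index of every place of `F_N` divides `3`. -/
theorem ord_dvd_three (N : ℕ) [NeZero N] (v : Place Kbar (FN N)) (hv : 0 < v.ord (jF N)) :
    v.ord (jF N) ∣ 3 := by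
  have h0 : jF N - algebraMap Kbar (FN N) 0 = jF N := by rw [map_zero, sub_zero]
  have hord : ordZ rho (jHol - algebraMap ℂ HolH ((thetaData N).emb 0)) = ((3 : ℕ) : ℤ) := by
    rw [map_zero]
    exact ordZ_jHol_sub_zero_rho
  obtain ⟨i, hi⟩ := ord_fibre_of_thetaData (thetaData N) 0 rho
    (ModularGroup.S * ModularGroup.T) 3
    (by norm_num) hord ST_smul_rho
    (fun f hf hinv => three_dvd_ordZ_of_ST_fixed ST_smul_rho hf hinv)
    (dvd_minimalPeriod_of_pow_smul _ 3 Nat.prime_three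
      (fun i => by rw [ST_pow_three]; exact neg_one_smul_coset N i)) v (by rw [h0]; exact hv)
  have hd := card_orbit_zpowers_dvd (ModularGroup.S * ModularGroup.T) i 3
    (by rw [ST_pow_three]; exact neg_one_smul_coset N i)
  rw [h0] at hi
  rw [hi]
  exact_mod_cast hd

/-- Refined form of `S24.Puiseux.card_fibre_infty_of_embeddings`: the ramification index of a
pole of `j` is the size of a `⟨T⟩`-orbit on `SL(2,ℤ) ⧸ Γ₀(N)`. -/
theorem ord_fibre_infty_of_embeddings (N : ℕ) [NeZero N]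
    (F₀ : Subalgebra Kbar (FN N))
    (hF₀ : ∀ f : FN N, ∃ a b : F₀, (b : FN N) ≠ 0 ∧ f * b = a)
    (hj : jF N ∈ F₀)
    (ρ : SL(2, ℤ) ⧸ Gamma0 N → F₀ →+* LaurentSeries Kbar)
    (hρ_inj : ∀ i, Function.Injective (ρ i))
    (hρ_ne : Function.Injective ρ)
    (hconst : ∀ i (c : Kbar), ρ i (algebraMap Kbar F₀ c) = HahnSeries.C c)
    (hρj : ∀ i, ρ i ⟨jF N, hj⟩ = qExpand Kbar N (jqModC Kbar))
    (ξ : Kbarˣ) (hξ : IsPrimitiveRoot ξ N)
    (hT : ∀ i (f : F₀), ρ (ModularGroup.T • i) f = scale ξ (ρ i f))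
    (v : Place Kbar (FN N)) (hv : v.ord (jF N) < 0) :
    ∃ i : SL(2, ℤ) ⧸ Gamma0 N,
      -v.ord (jF N) = Nat.card (MulAction.orbit (Subgroup.zpowers ModularGroup.T) i) := by
  classical
  have hx := transcendental_jF N
  have htr := trdeg_FN N
  have hfin : FiniteDimensional Kbar⟮jF N⟯ (FN N) :=
    Fermat.Agent.S24.FF.finite_adjoin_simple htr hx
  have hx' : Transcendental Kbar (jF N)⁻¹ := Fermat.Agent.S24.FF.transcendental_inv hx
  have hfin' : FiniteDimensional Kbar⟮(jF N)⁻¹⟯ (FN N) :=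
    Fermat.Agent.S24.FF.finiteDimensional_adjoin_inv _ hfin
  have hj0 : jF N ≠ 0 := fun h => hx (h ▸ isAlgebraic_zero)
  letI : Fintype (SL(2, ℤ) ⧸ Gamma0 N) := Fintype.ofFinite _
  have hN : 0 < N := Nat.pos_of_ne_zero (NeZero.ne N)
  have hordj : (qExpand Kbar N (jqModC Kbar)).order = -(N : ℤ) := by
    rw [order_qExpand, order_jqModC]
    ring
  have hv' : 0 < v.ord (jF N)⁻¹ := (Fermat.Agent.S24.FF.ord_neg_iff_ord_inv_pos v (jF N)).mp hv
  have hinv : v.ord (jF N)⁻¹ = -v.ord (jF N) := v.ord_inv (jF N)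
  rw [← hinv]
  refine ord_eq_card_orbit htr (jF N)⁻¹ hx' hfin'
    F₀ hF₀ (1 : F₀) ⟨jF N, hj⟩ ?_ ?_ (HahnSeries.order (Γ := ℤ) (R := Kbar))
    ?_ ?_ ρ hρ_inj hρ_ne ?_ ?_ ?_ ?_ ?_ N hN ?_ ModularGroup.T ?_ ?_ v hv'
  · -- den ≠ 0
    intro h
    exact hj0 (congrArg Subtype.val h)
  · -- x * den = num
    show (jF N)⁻¹ * jF N = ((1 : F₀) : FN N)
    rw [inv_mul_cancel₀ hj0]
    rfl
  · -- hmul
    intro a b ha hb
    exact HahnSeries.order_mul ha hb
  · -- hadd
    intro a b _ _ hab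
    exact HahnSeries.min_order_le_order_add hab
  · -- hcard
    rw [Fermat.Agent.S24.FF.finrank_adjoin_inv, finrank_jF N,
      ← Fermat.Agent.S24.Comb.card_quotient_Gamma0 N, Nat.card_eq_fintype_card]
  · -- hK
    intro i j c
    rw [hconst, hconst]
  · -- hnum
    intro i j
    rw [map_one, map_one]
  · -- hden'
    intro i j
    rw [hρj, hρj]
  · -- hconst
    intro i c _
    rw [hconst]
    exact HahnSeries.order_C
  · -- hxs
    intro i
    rw [map_one, hρj, hordj, HahnSeries.order_one]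
    ring
  · -- hg
    intro i f
    rw [hT, order_scale]
  · -- hdiv
    intro i f _
    set m := Function.minimalPeriod (fun i : SL(2, ℤ) ⧸ Gamma0 N => ModularGroup.T • i) i with hm
    have hper : (fun i : SL(2, ℤ) ⧸ Gamma0 N => ModularGroup.T • i)^[m] i = i :=
      Function.isPeriodicPt_minimalPeriod _ i
    have hinv : scale (ξ ^ m) (ρ i f) = ρ i f := by
      rw [← rho_iterate_T ρ ξ hT m i f, hper]
    have h := dvd_mul_order_of_scale_pow_eq hξ m hinv
    rw [mul_comm] at h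
    exact h

/-- **At the cusps** (poles of `j`) the ramification index of every place of `F_N` divides `N`:
`-ord_v(j) = |⟨T⟩ i|` for a coset `i`. -/
theorem exists_neg_ord_eq_card_orbit_T (N : ℕ) [NeZero N] (v : Place Kbar (FN N))
    (hv : v.ord (jF N) < 0) :
    ∃ i : SL(2, ℤ) ⧸ Gamma0 N,
      -v.ord (jF N) = Nat.card (MulAction.orbit (Subgroup.zpowers ModularGroup.T) i) := by
  let Q := Fermat.Agent.S24.Cusp.qExpSys N
  refine ord_fibre_infty_of_embeddings N Q.F₀ Q.frac Q.jF_mem Q.rho ?_ Q.rho_injective ?_ ?_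
    Q.ζ⁻¹ Q.hζ.inv ?_ v hv
  · intro x
    exact (Q.cuspQ_apply_injective x).comp Q.incl_injective
  · intro x c
    rw [Fermat.Agent.S24.Cusp.QExpSys.rho_apply, AlgHom.commutes, AlgHom.commutes,
      algebraMap_laurentSeries_eq_single, HahnSeries.C_apply]
  · intro x
    rw [Fermat.Agent.S24.Cusp.QExpSys.rho_apply, Q.incl_jF, Q.cuspQ_jG_one, Fermat.Agent.S24.Cusp.QExpSys.jgen_one, coeffEmb_jq]
  · intro x f
    rw [Fermat.Agent.S24.Cusp.QExpSys.rho_apply, Fermat.Agent.S24.Cusp.QExpSys.rho_apply,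
      Q.cuspQ_T_smul]

/-- **At the cusps** the ramification index divides the level. -/
theorem ord_dvd_level (N : ℕ) [NeZero N] (v : Place Kbar (FN N)) (hv : v.ord (jF N) < 0) :
    v.ord (jF N) ∣ (N : ℤ) := by
  obtain ⟨i, hi⟩ := exists_neg_ord_eq_card_orbit_T N v hv
  have hd := card_orbit_zpowers_dvd ModularGroup.T i N (by
    have h := Fermat.Agent.Lib.Gamma0Count.T_zpow_level_smul N i
    rwa [zpow_natCast] at h)
  rw [← neg_dvd, hi]
  exact_mod_cast hd

end Fermat.Agent.S30.Branch
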