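import Mathlib
import Fermat.Agent.S24.FibreCount

set_option autoImplicit false

/-!
# Per-place form of the S24 fibre count

`Fermat.Agent.S24.FibreCount.card_places_eq_card_orbits_aux` counts the places over `t = 0` by
the `⟨g⟩`-orbits on a full system of embeddings.  Here we extract the finer statement hidden in
its proof: for every place `v` over `t = 0`, `ord_v t` is the cardinality of a `⟨g⟩`-orbit.
-/

namespace Fermat.Agent.S30.Branch.OrbitOrd

open AlgebraicCurve IntermediateField Fermat.Agent.S24.FibreCount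

variable {K F : Type*} [Field K] [Field F] [Algebra K F]
variable {E : Type*} [Field E]
variable {X : Type*} {G : Type*} [Group G] [MulAction G X]

/-- termwise equality from equal sums and termwise inequality -/
theorem eq_of_sum_eq_of_le {V : Type*} [Fintype V] (a b : V → ℕ) (hab : ∀ v, a v ≤ b v)
    (hsum : ∑ v, b v ≤ ∑ v, a v) (v : V) : a v = b v := by
  classical
  by_contra hne
  have hlt : a v < b v := lt_of_le_of_ne (hab v) hne
  have : ∑ v, a v < ∑ v, b v :=
    Finset.sum_lt_sum (fun i _ => hab i) ⟨v, Finset.mem_univ v, hlt⟩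
  omega

/-- **Per-place fibre theorem** (field form): under the hypotheses of the S24 fibre count, the
order of `t` at a place over `t = 0` is the cardinality of a `⟨g⟩`-orbit of embeddings. -/
theorem exists_ord_eq_card_orbit [CharZero K] [Fintype X] (t : F) [Module.Finite K⟮t⟯ F]
    (hfin : {v : Place K F | 0 < v.ord t}.Finite)
    (hsum : ∑ v ∈ hfin.toFinset, v.ord t = Module.finrank K⟮t⟯ F)
    (w : E → ℤ)
    (hw_mul : ∀ a b : E, a ≠ 0 → b ≠ 0 → w (a * b) = w a + w b)
    (hw_add : ∀ a b : E, a ≠ 0 → b ≠ 0 → a + b ≠ 0 → min (w a) (w b) ≤ w (a + b))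
    (g : G) (ι : X → F →+* E)
    (hι : Function.Injective ι) (hcard : Fintype.card X = Module.finrank K⟮t⟯ F)
    (hK : ∀ x y (c : K), ι x (algebraMap K F c) = ι y (algebraMap K F c))
    (hK0 : ∀ x (c : K), c ≠ 0 → w (ι x (algebraMap K F c)) = 0)
    (ht : ∀ x y, ι x t = ι y t) (s : ℕ) (hs : 0 < s) (hts : ∀ x, w (ι x t) = s)
    (hg : ∀ x (f : F), w (ι (g • x) f) = w (ι x f))
    (hbound : ∀ x, ∃ κ : ℕ, (∀ f : F, f ≠ 0 → (κ : ℤ) ∣ w (ι x f)) ∧
      s ≤ κ * Nat.card (MulAction.orbit (Subgroup.zpowers g) x))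
    (v : Place K F) (hv : 0 < v.ord t) :
    ∃ x : X, v.ord t = Nat.card (MulAction.orbit (Subgroup.zpowers g) x) := by
  classical
  have hcardeq := card_places_eq_card_orbits_aux t hfin hsum w hw_mul hw_add g ι hι hcard hK hK0
    ht s hs hts hg hbound
  have hw : IsOrd w := ⟨hw_mul, hw_add⟩
  have hn : 0 < Module.finrank K⟮t⟯ F := Module.finrank_pos
  have ht0 : t ≠ 0 := by
    rintro rfl
    have : hfin.toFinset = ∅ := by
      ext v
      simp
    rw [this, Finset.sum_empty] at hsum
    omega
  have htpos : ∀ x, 0 < w (ι x t) := fun x => by rw [hts x]; exact_mod_cast hs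
  -- every place over `0` comes from an embedding
  have hex : ∀ u : {v : Place K F // 0 < v.ord t}, ∃ x : X,
      u.1 = placeOfEmb ι hw hK0 ht0 htpos x := by
    rintro ⟨u, hu⟩
    obtain ⟨x, hx⟩ := exists_nonneg_iff ι hw hι hcard hK hK0 ht ht0 htpos u hu
    exact ⟨x, eq_placeOfEmb_of_forall ι hw hK0 ht0 htpos u x hx⟩
  choose xs hxs using hex
  have : Fintype {v : Place K F // 0 < v.ord t} := hfin.fintype
  let ψ : {v : Place K F // 0 < v.ord t} → MulAction.orbitRel.Quotient (Subgroup.zpowers g) X :=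
    fun u => Quotient.mk _ (xs u)
  have hψinj : Function.Injective ψ := by
    intro u1 u2 h12
    have hrel := Quotient.exact h12
    obtain ⟨⟨h, hh⟩, hhx⟩ := (MulAction.orbitRel_apply.mp hrel)
    apply Subtype.ext
    rw [hxs u1, hxs u2]
    apply placeOfEmb_eq_of_forall ι hw hK0 ht0 htpos
    intro f
    rw [← hhx]
    exact ord_zpowers_smul ι g hg h hh (xs u2) f
  have hψbij : Function.Bijective ψ := by
    rw [Fintype.bijective_iff_injective_and_card]
    refine ⟨hψinj, ?_⟩
    rw [← Nat.card_eq_fintype_card, ← Nat.card_eq_fintype_card]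
    exact hcardeq
  have h1 : ∑ q : MulAction.orbitRel.Quotient (Subgroup.zpowers g) X, Nat.card q.orbit =
      Fintype.card X := by
    rw [← Nat.card_eq_fintype_card,
      Nat.card_congr (MulAction.selfEquivSigmaOrbits' (Subgroup.zpowers g) X), Nat.card_sigma]
  have h2 : ((∑ u : {v : Place K F // 0 < v.ord t}, (u.1.ord t).toNat : ℕ) : ℤ) =
      Module.finrank K⟮t⟯ F := by
    rw [← hsum, Nat.cast_sum,
      Finset.sum_subtype hfin.toFinset (p := fun v => 0 < v.ord t) (fun v => by simp)
        (fun v => v.ord t)]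
    apply Finset.sum_congr rfl
    intro u _
    exact Int.toNat_of_nonneg u.2.le
  have h3 : ∑ u : {v : Place K F // 0 < v.ord t}, Nat.card (ψ u).orbit = Fintype.card X := by
    rw [← h1]
    exact Function.Bijective.sum_comp hψbij (fun q => Nat.card q.orbit)
  have horb : ∀ u : {v : Place K F // 0 < v.ord t},
      Nat.card (ψ u).orbit = Nat.card (MulAction.orbit (Subgroup.zpowers g) (xs u)) := by
    intro u
    have he : MulAction.orbitRel.Quotient.orbit
        (Quotient.mk (MulAction.orbitRel (Subgroup.zpowers g) X) (xs u)) =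
        MulAction.orbit (Subgroup.zpowers g) (xs u) := MulAction.orbitRel.Quotient.orbit_mk (xs u)
    show Nat.card (MulAction.orbitRel.Quotient.orbit
        (Quotient.mk (MulAction.orbitRel (Subgroup.zpowers g) X) (xs u))) = _
    rw [he]
  have hle : ∀ u : {v : Place K F // 0 < v.ord t},
      (u.1.ord t).toNat ≤ Nat.card (ψ u).orbit := by
    intro u
    have hb := placeOfEmb_ord_le ι hw hK0 ht0 htpos (xs u)
      (Nat.card (MulAction.orbit (Subgroup.zpowers g) (xs u))) s (hts (xs u)) (hbound (xs u))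
    rw [← hxs u] at hb
    rw [horb u]
    omega
  have hsumle : ∑ u : {v : Place K F // 0 < v.ord t}, Nat.card (ψ u).orbit ≤
      ∑ u : {v : Place K F // 0 < v.ord t}, (u.1.ord t).toNat := by
    rw [h3, hcard]
    exact_mod_cast h2.ge
  have hfinal := eq_of_sum_eq_of_le _ _ hle hsumle ⟨v, hv⟩
  refine ⟨xs ⟨v, hv⟩, ?_⟩
  rw [← horb ⟨v, hv⟩, ← hfinal]
  exact (Int.toNat_of_nonneg hv.le).symm

end Fermat.Agent.S30.Branch.OrbitOrd
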