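import Mathlib
import Fermat.Agent.S30.Branch.OrbitOrd
import Fermat.Agent.S24.Modular.M4
import Fermat.Agent.S24.Modular.M5
import Fermat.Agent.S24.Modular.M6

set_option autoImplicit false
set_option linter.dupNamespace false

/-!
# Branch data of `j` on `F_N`, finite points, in place form

Per-place versions of S24's M4, M5, M6:
* over `a ≠ 0, 1728` every place has `ord_v (j - a) = 1`;
* over `0` the orders divide `3`;
* over `1728` the orders divide `2`.
-/

noncomputable section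

namespace Fermat.Agent.S30.Branch.JFin

open ModularCurve AlgebraicCurve IntermediateField CongruenceSubgroup UpperHalfPlane
open Fermat.Agent.S24 Fermat.Agent.S24.Modular
open Fermat.Agent.S24.HolH Fermat.Agent.S24.JHol Fermat.Agent.S24.JFun
open scoped MatrixGroups

section Generic

variable {K F : Type*} [Field K] [Field F] [Algebra K F]

/-- G3, per-place form. -/
theorem exists_ord_eq_card_orbit_G3 [IsAlgClosed K] [CharZero K]
    [Algebra.EssFiniteType K F] (htr : Algebra.trdeg K F = 1)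
    (x : F) (hx : Transcendental K x) (hfin : FiniteDimensional K⟮x⟯ F)
    (F₀ : Subalgebra K F) (hF₀ : ∀ f : F, ∃ a b : F₀, (b : F) ≠ 0 ∧ f * b = a)
    (num den : F₀) (hden : den ≠ 0) (hxnd : x * den = num)
    {R : Type*} [CommRing R] [IsDomain R] (ordR : R → ℤ)
    (hmul : ∀ a b : R, a ≠ 0 → b ≠ 0 → ordR (a * b) = ordR a + ordR b)
    (hadd : ∀ a b : R, a ≠ 0 → b ≠ 0 → a + b ≠ 0 → min (ordR a) (ordR b) ≤ ordR (a + b))
    {I : Type*} [Fintype I] (ρ : I → F₀ →+* R) (hρ_inj : ∀ i, Function.Injective (ρ i))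
    (hρ_ne : Function.Injective ρ)
    (hcard : Fintype.card I = Module.finrank K⟮x⟯ F)
    (hK : ∀ i j (c : K), ρ i (algebraMap K F₀ c) = ρ j (algebraMap K F₀ c))
    (hnum : ∀ i j, ρ i num = ρ j num) (hden' : ∀ i j, ρ i den = ρ j den)
    (hconst : ∀ i (c : K), c ≠ 0 → ordR (ρ i (algebraMap K F₀ c)) = 0)
    (s : ℕ) (hs : 0 < s) (hxs : ∀ i, ordR (ρ i num) - ordR (ρ i den) = s)
    {Γ : Type*} [Group Γ] [MulAction Γ I] (g : Γ)
    (hg : ∀ i (f : F₀), ordR (ρ (g • i) f) = ordR (ρ i f))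
    (hdiv : ∀ i (f : F₀), f ≠ 0 →
      (s : ℤ) ∣ ordR (ρ i f) * (Function.minimalPeriod (g • ·) i : ℤ))
    (v : Place K F) (hv : 0 < v.ord x) :
    ∃ i : I, v.ord x = Nat.card (MulAction.orbit (Subgroup.zpowers g) i) := by
  have hx0 : x ≠ 0 := by
    rintro rfl
    exact hx (by simpa using (isAlgebraic_zero : IsAlgebraic K (0 : F)))
  obtain ⟨w, ι, hw, hι, hK', hK0, ht, hts, hg', hbound⟩ :=
    Generic.G3Adapter.exists_data x hx0 F₀ hF₀ num den hden hxnd ordR hmul hadd ρ hρ_inj hρ_ne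
      hK hnum hden' hconst s hs hxs g hg hdiv
  have hmodfin : Module.Finite K⟮x⟯ F := hfin
  have h0 : x - algebraMap K F 0 = x := by simp
  have hVfin : {v : Place K F | 0 < v.ord x}.Finite := by
    have := FF.zeros_finite htr hx 0
    rwa [h0] at this
  have hsum : ∑ v ∈ hVfin.toFinset, v.ord x = Module.finrank K⟮x⟯ F := by
    have := FF.sum_ord_zeros htr hx 0
    rw [h0] at this
    rw [← this, finsum_mem_eq_finite_toFinset_sum _ hVfin]
  exact OrbitOrd.exists_ord_eq_card_orbit x hVfin hsum w hw.1 hw.2 g ι hι hcard hK' hK0 ht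
    s hs hts hg' hbound v hv

end Generic

/-- Per-place form of `card_fibre_of_thetaData`. -/
theorem exists_ord_eq_card_orbit_of_thetaData {N : ℕ} [NeZero N] (D : ThetaData N) (a : Kbar)
    (τ0 : ℍ) (g : SL(2, ℤ)) (s : ℕ) (hs : 0 < s)
    (hord : ordZ τ0 (jHol - algebraMap ℂ HolH (D.emb a)) = s)
    (hfix : g • τ0 = τ0)
    (hrot : ∀ f : HolH, f ≠ 0 → compSL g f = f → (s : ℤ) ∣ ordZ τ0 f)
    (hper : ∀ i : SL(2, ℤ) ⧸ Gamma0 N, g • i ≠ i → s ∣ Function.minimalPeriod (g • ·) i)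
    (v : Place Kbar (FN N)) (hv : 0 < v.ord (jF N - algebraMap Kbar (FN N) a)) :
    ∃ i : SL(2, ℤ) ⧸ Gamma0 N, v.ord (jF N - algebraMap Kbar (FN N) a) =
      Nat.card (MulAction.orbit (Subgroup.zpowers g) i) := by
  classical
  letI : Fintype (SL(2, ℤ) ⧸ Gamma0 N) := Fintype.ofFinite _
  have htr := trdeg_FN N
  have hx0 := transcendental_jF N
  have hx := Fermat.Agent.S24.AdjoinShift.transcendental_sub_algebraMap hx0 a
  have hfin0 : FiniteDimensional Kbar⟮jF N⟯ (FN N) :=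
    Fermat.Agent.S24.FF.finite_adjoin_simple htr hx0
  have hfin := Fermat.Agent.S24.AdjoinShift.finiteDimensional_sub_algebraMap (jF N) a hfin0
  have hginv : g⁻¹ • τ0 = τ0 := by
    conv_lhs => rw [← hfix]
    rw [inv_smul_smul]
  refine exists_ord_eq_card_orbit_G3 htr (jF N - algebraMap Kbar (FN N) a) hx hfin
    D.F₀ D.hF₀ (D.num a) 1 one_ne_zero (by simp [ThetaData.num]) (ordZ τ0)
    (fun a b ha hb => ordZ_mul τ0 ha hb) (fun a b ha hb hab => min_le_ordZ_add τ0 ha hb hab)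
    D.ρ D.ρ_injective D.ρ_ne ?_ ?_ ?_ ?_ ?_ s hs ?_ g ?_ ?_ v hv
  · rw [Fermat.Agent.S24.AdjoinShift.finrank_sub_algebraMap, finrank_jF, ← Nat.card_eq_fintype_card,
      Fermat.Agent.S24.Comb.card_quotient_Gamma0]
  · intro i j c
    rw [D.ρ_const, D.ρ_const]
  · intro i j
    rw [D.ρ_num, D.ρ_num]
  · intro i j
    rw [map_one, map_one]
  · intro i c hc
    rw [D.ρ_const]
    exact ordZ_algebraMap ((map_ne_zero_iff _ D.emb.injective).mpr hc)
  · intro i
    rw [D.ρ_num, map_one, ordZ_one, hord, sub_zero]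
  · intro i f
    rw [D.ρ_smul, ordZ_compSL, hginv]
  · intro i f hf
    have hf0 : D.ρ i f ≠ 0 := (map_ne_zero_iff _ (D.ρ_injective i)).mpr hf
    by_cases hi : g • i = i
    · have h1 : compSL g⁻¹ (D.ρ i f) = D.ρ i f := by rw [← D.ρ_smul, hi]
      have h2 : compSL g (D.ρ i f) = D.ρ i f := compSL_eq_self_of_inv h1
      exact Dvd.dvd.mul_right (hrot _ hf0 h2) _
    · have h1 : (s : ℤ) ∣ (Function.minimalPeriod (g • ·) i : ℤ) := by
        exact_mod_cast hper i hi
      exact Dvd.dvd.mul_left h1 _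

/-- the size of a `⟨g⟩`-orbit on cosets divides `n` if `g ^ n` acts trivially -/
theorem card_orbit_dvd {N : ℕ} [NeZero N] (g : SL(2, ℤ)) (n : ℕ)
    (hg : ∀ i : SL(2, ℤ) ⧸ Gamma0 N, g ^ n • i = i) (i : SL(2, ℤ) ⧸ Gamma0 N) :
    Nat.card (MulAction.orbit (Subgroup.zpowers g) i) ∣ n := by
  classical
  have hmp : Function.minimalPeriod (g • ·) i =
      Nat.card (MulAction.orbit (Subgroup.zpowers g) i) :=
    (@MulAction.minimalPeriod_eq_card _ _ _ g _ i (Fintype.ofFinite _)).trans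
      Fintype.card_eq_nat_card
  rw [← hmp]
  have hper : Function.IsPeriodicPt (g • ·) n i := by
    show (g • ·)^[n] i = i
    rw [smul_iterate]
    exact hg i
  exact hper.minimalPeriod_dvd

/-- **Unramified fibres**: over `a ≠ 0, 1728` every place has `ord_v (j - a) = 1`. -/
theorem ord_j_sub_eq_one (N : ℕ) [NeZero N] (a : Kbar) (h0 : a ≠ 0) (h1 : a ≠ 1728)
    (v : Place Kbar (FN N)) (hv : 0 < v.ord (jF N - algebraMap Kbar (FN N) a)) :
    v.ord (jF N - algebraMap Kbar (FN N) a) = 1 := by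
  have hc0 : (thetaData N).emb a ≠ 0 := (map_ne_zero (thetaData N).emb).mpr h0
  have hc1 : (thetaData N).emb a ≠ 1728 := by
    intro h
    apply h1
    apply (thetaData N).emb.injective
    rw [h, map_ofNat]
  obtain ⟨τ0, -, hτ0⟩ := exists_ordZ_jHol_sub_eq_one hc0 hc1
  obtain ⟨i, hi⟩ := exists_ord_eq_card_orbit_of_thetaData (thetaData N) a τ0 (1 : SL(2, ℤ)) 1
    one_pos (by rw [hτ0]; rfl) (one_smul _ _)
    (fun f _ _ => one_dvd _) (fun i hi => absurd (one_smul _ i) hi) v hv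
  have hdvd := card_orbit_dvd (N := N) (1 : SL(2, ℤ)) 1 (fun i => by simp) i
  rw [hi, Nat.dvd_one.mp hdvd]
  rfl

/-- **Fibre over `j = 1728`**: the orders divide `2`. -/
theorem ord_j_sub_1728_dvd (N : ℕ) [NeZero N] (v : Place Kbar (FN N))
    (hv : 0 < v.ord (jF N - algebraMap Kbar (FN N) 1728)) :
    v.ord (jF N - algebraMap Kbar (FN N) 1728) ∣ 2 := by
  have hord : ordZ UpperHalfPlane.I (jHol - algebraMap ℂ HolH ((thetaData N).emb 1728))
      = ((2 : ℕ) : ℤ) := by
    rw [map_ofNat]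
    exact ordZ_jHol_sub_I
  obtain ⟨i, hi⟩ := exists_ord_eq_card_orbit_of_thetaData (thetaData N) 1728 UpperHalfPlane.I
    ModularGroup.S 2 (by norm_num) hord S_smul_I
    (fun f hf hinv => two_dvd_ordZ_of_S_fixed S_smul_I hf hinv)
    (dvd_minimalPeriod_of_pow_smul _ 2 Nat.prime_two
      (fun i => by rw [S_pow_two_eq_neg_one]; exact neg_one_smul_coset N i)) v hv
  have hdvd := card_orbit_dvd (N := N) ModularGroup.S 2
    (fun i => by rw [S_pow_two_eq_neg_one]; exact neg_one_smul_coset N i) i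
  rw [hi]
  exact_mod_cast hdvd

/-- **Fibre over `j = 0`**: the orders divide `3`. -/
theorem ord_j_dvd_three (N : ℕ) [NeZero N] (v : Place Kbar (FN N))
    (hv : 0 < v.ord (jF N - algebraMap Kbar (FN N) 0)) :
    v.ord (jF N - algebraMap Kbar (FN N) 0) ∣ 3 := by
  have hord : ordZ rho (jHol - algebraMap ℂ HolH ((thetaData N).emb 0)) = ((3 : ℕ) : ℤ) := by
    rw [map_zero]
    exact ordZ_jHol_sub_zero_rho
  obtain ⟨i, hi⟩ := exists_ord_eq_card_orbit_of_thetaData (thetaData N) 0 rho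
    (ModularGroup.S * ModularGroup.T) 3 (by norm_num) hord ST_smul_rho
    (fun f hf hinv => three_dvd_ordZ_of_ST_fixed ST_smul_rho hf hinv)
    (dvd_minimalPeriod_of_pow_smul _ 3 Nat.prime_three
      (fun i => by rw [ST_pow_three]; exact neg_one_smul_coset N i)) v hv
  have hdvd := card_orbit_dvd (N := N) (ModularGroup.S * ModularGroup.T) 3
    (fun i => by rw [ST_pow_three]; exact neg_one_smul_coset N i) i
  rw [hi]
  exact_mod_cast hdvd

end Fermat.Agent.S30.Branch.JFin
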