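import Mathlib
import Fermat.Agent.S30.Branch.JFin
import Fermat.Agent.S24.Cusp.Inst
import Fermat.Agent.Lib.Gamma0Cusps

set_option autoImplicit false
set_option linter.style.haveILetI false

/-!
# Branch data of `j` on `F_N` at the cusps, in place form

Per-place version of S24's M7: at a pole `v` of `j`, the pole order `- ord_v j` divides `N`.
-/

noncomputable section

namespace Fermat.Agent.S30.Branch.JInf

open HahnSeries ModularCurve AlgebraicCurve IntermediateField CongruenceSubgroup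
open Fermat.Agent.S24 Fermat.Agent.S24.Modular Fermat.Agent.S24.Puiseux Fermat.Agent.S24.Cusp
open scoped MatrixGroups

/-- Per-place form of `Puiseux.card_fibre_infty_of_embeddings`. -/
theorem exists_ord_eq_card_orbit_infty_of_embeddings (N : ℕ) [NeZero N]
    (F₀ : Subalgebra Kbar (FN N))
    (hF₀ : ∀ f : FN N, ∃ a b : F₀, (b : FN N) ≠ 0 ∧ f * b = a)
    (hj : jF N ∈ F₀)
    (ρ : SL(2, ℤ) ⧸ Gamma0 N → F₀ →+* LaurentSeries Kbar)
    (hρ_inj : ∀ i, Function.Injective (ρ i))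
    (hρ_ne : Function.Injective ρ)
    (hconst : ∀ i (c : Kbar), ρ i (algebraMap Kbar F₀ c) = HahnSeries.C c)
    (hρj : ∀ i, ρ i ⟨jF N, hj⟩ = qExpand Kbar N (jqModC Kbar))
    (ξ : Kbarˣ) (hξ : IsPrimitiveRoot ξ N)
    (hT : ∀ i (f : F₀), ρ (ModularGroup.T • i) f = scale ξ (ρ i f))
    (v : Place Kbar (FN N)) (hv : v.ord (jF N) < 0) :
    ∃ i : SL(2, ℤ) ⧸ Gamma0 N,
      -v.ord (jF N) = Nat.card (MulAction.orbit (Subgroup.zpowers ModularGroup.T) i) := by
  classical
  have hx := transcendental_jF N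
  have htr := trdeg_FN N
  have hfin : FiniteDimensional Kbar⟮jF N⟯ (FN N) :=
    Fermat.Agent.S24.FF.finite_adjoin_simple htr hx
  have hx' : Transcendental Kbar (jF N)⁻¹ := Fermat.Agent.S24.FF.transcendental_inv hx
  have hfin' : FiniteDimensional Kbar⟮(jF N)⁻¹⟯ (FN N) :=
    Fermat.Agent.S24.FF.finiteDimensional_adjoin_inv _ hfin
  have hj0 : jF N ≠ 0 := fun h => hx (h ▸ isAlgebraic_zero)
  letI : Fintype (SL(2, ℤ) ⧸ Gamma0 N) := Fintype.ofFinite _
  have hN : 0 < N := Nat.pos_of_ne_zero (NeZero.ne N)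
  have hordj : (qExpand Kbar N (jqModC Kbar)).order = -(N : ℤ) := by
    rw [order_qExpand, order_jqModC]
    ring
  have hv' : 0 < v.ord (jF N)⁻¹ := (Fermat.Agent.S24.FF.ord_neg_iff_ord_inv_pos v (jF N)).mp hv
  have hinv : v.ord (jF N)⁻¹ = -v.ord (jF N) := v.ord_inv (jF N)
  rw [← hinv]
  refine JFin.exists_ord_eq_card_orbit_G3 htr (jF N)⁻¹ hx' hfin'
    F₀ hF₀ (1 : F₀) ⟨jF N, hj⟩ ?_ ?_ (HahnSeries.order (Γ := ℤ) (R := Kbar))
    ?_ ?_ ρ hρ_inj hρ_ne ?_ ?_ ?_ ?_ ?_ N hN ?_ ModularGroup.T ?_ ?_ v hv'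
  · -- den ≠ 0
    intro h
    exact hj0 (congrArg Subtype.val h)
  · -- x * den = num
    show (jF N)⁻¹ * jF N = ((1 : F₀) : FN N)
    rw [inv_mul_cancel₀ hj0]
    rfl
  · -- hmul
    intro a b ha hb
    exact HahnSeries.order_mul ha hb
  · -- hadd
    intro a b _ _ hab
    exact HahnSeries.min_order_le_order_add hab
  · -- hcard
    rw [Fermat.Agent.S24.FF.finrank_adjoin_inv, finrank_jF N,
      ← Fermat.Agent.S24.Comb.card_quotient_Gamma0 N, Nat.card_eq_fintype_card]
  · -- hK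
    intro i j c
    rw [hconst, hconst]
  · -- hnum
    intro i j
    rw [map_one, map_one]
  · -- hden'
    intro i j
    rw [hρj, hρj]
  · -- hconst
    intro i c _
    rw [hconst]
    exact HahnSeries.order_C
  · -- hxs
    intro i
    rw [map_one, hρj, hordj, HahnSeries.order_one]
    ring
  · -- hg
    intro i f
    rw [hT, order_scale]
  · -- hdiv
    intro i f _
    set m := Function.minimalPeriod (fun i : SL(2, ℤ) ⧸ Gamma0 N => ModularGroup.T • i) i with hm
    have hper : (fun i : SL(2, ℤ) ⧸ Gamma0 N => ModularGroup.T • i)^[m] i = i :=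
      Function.isPeriodicPt_minimalPeriod _ i
    have hinv : scale (ξ ^ m) (ρ i f) = ρ i f := by
      rw [← rho_iterate_T ρ ξ hT m i f, hper]
    have h := dvd_mul_order_of_scale_pow_eq hξ m hinv
    rw [mul_comm] at h
    exact h

/-- Per-place form of `QExpSys.card_fibre_infty`. -/
theorem exists_ord_eq_card_orbit_infty_of_qExpSys {N : ℕ} [NeZero N] (Q : QExpSys Kbar N)
    (v : Place Kbar (FN N)) (hv : v.ord (jF N) < 0) :
    ∃ i : SL(2, ℤ) ⧸ Gamma0 N,
      -v.ord (jF N) = Nat.card (MulAction.orbit (Subgroup.zpowers ModularGroup.T) i) := by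
  refine exists_ord_eq_card_orbit_infty_of_embeddings N Q.F₀ Q.frac Q.jF_mem Q.rho ?_
    Q.rho_injective ?_ ?_ Q.ζ⁻¹ Q.hζ.inv ?_ v hv
  · intro x
    exact (Q.cuspQ_apply_injective x).comp Q.incl_injective
  · intro x c
    rw [QExpSys.rho_apply, AlgHom.commutes, AlgHom.commutes, algebraMap_laurentSeries_eq_single,
      HahnSeries.C_apply]
  · intro x
    rw [QExpSys.rho_apply, Q.incl_jF, Q.cuspQ_jG_one, QExpSys.jgen_one, coeffEmb_jq]
  · intro x f
    rw [QExpSys.rho_apply, QExpSys.rho_apply, Q.cuspQ_T_smul]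

/-- **Cusps**: at a pole `v` of `j` on `X₀(N)`, the pole order divides `N`. -/
theorem neg_ord_j_dvd_level (N : ℕ) [NeZero N] (v : Place Kbar (FN N))
    (hv : v.ord (jF N) < 0) : -v.ord (jF N) ∣ (N : ℤ) := by
  obtain ⟨i, hi⟩ := exists_ord_eq_card_orbit_infty_of_qExpSys (qExpSys N) v hv
  have hdvd := JFin.card_orbit_dvd (N := N) ModularGroup.T N
    (fun i => by
      have h := Fermat.Agent.Lib.Gamma0Count.T_zpow_level_smul N i
      rwa [zpow_natCast] at h) i
  rw [hi]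
  exact_mod_cast hdvd

end Fermat.Agent.S30.Branch.JInf
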