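import Fermat.Agent.S24.FibreCount
import Fermat.Agent.S24.Generic.G3

set_option autoImplicit false

/-!
Refined fibre count: in the situation of the S24 fibre count (`FibreCount.card_places_eq_card_orbits`
and its subalgebra form G3), EVERY place `v` of `F` over `t = 0` is the place of one of the
embeddings `ι x`, and its ramification index `v.ord t` is the size of the `⟨g⟩`-orbit of `x`.
(The S24 statements only record the number of places.)
-/

open AlgebraicCurve IntermediateField

namespace Fermat.Agent.S30.Branch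

open Fermat.Agent.S24 Fermat.Agent.S24.FibreCount

section Field

variable {K F : Type*} [Field K] [Field F] [Algebra K F]
variable {E : Type*} [Field E]
variable {X : Type*} {G : Type*} [Group G] [MulAction G X]

/-- **Refined fibre count** (field form): every place `v` over `t = 0` comes from an embedding
`ι x`; `w ∘ ι x = κ · ord_v` and `ord_v t = |⟨g⟩ x|`. -/
theorem ord_eq_card_orbit_field [CharZero K] [Fintype X] (t : F) [Module.Finite K⟮t⟯ F]
    (hfin : {v : Place K F | 0 < v.ord t}.Finite)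
    (hsum : ∑ v ∈ hfin.toFinset, v.ord t = Module.finrank K⟮t⟯ F)
    (w : E → ℤ)
    (hw_mul : ∀ a b : E, a ≠ 0 → b ≠ 0 → w (a * b) = w a + w b)
    (hw_add : ∀ a b : E, a ≠ 0 → b ≠ 0 → a + b ≠ 0 → min (w a) (w b) ≤ w (a + b))
    (g : G) (ι : X → F →+* E)
    (hι : Function.Injective ι) (hcard : Fintype.card X = Module.finrank K⟮t⟯ F)
    (hK : ∀ x y (c : K), ι x (algebraMap K F c) = ι y (algebraMap K F c))
    (hK0 : ∀ x (c : K), c ≠ 0 → w (ι x (algebraMap K F c)) = 0)
    (ht : ∀ x y, ι x t = ι y t) (s : ℕ) (hs : 0 < s) (hts : ∀ x, w (ι x t) = s)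
    (hg : ∀ x (f : F), w (ι (g • x) f) = w (ι x f))
    (hbound : ∀ x, ∃ κ : ℕ, (∀ f : F, f ≠ 0 → (κ : ℤ) ∣ w (ι x f)) ∧
      s ≤ κ * Nat.card (MulAction.orbit (Subgroup.zpowers g) x))
    (v : Place K F) (hv : 0 < v.ord t) :
    ∃ x : X, v.ord t = Nat.card (MulAction.orbit (Subgroup.zpowers g) x) ∧
      ∃ κ : ℤ, 0 < κ ∧ ∀ f : F, f ≠ 0 → w (ι x f) = κ * v.ord f := by
  classical
  have hw : IsOrd w := ⟨hw_mul, hw_add⟩
  have hn : 0 < Module.finrank K⟮t⟯ F := Module.finrank_pos
  have ht0 : t ≠ 0 := by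
    rintro rfl
    have : hfin.toFinset = ∅ := by
      ext v
      simp
    rw [this, Finset.sum_empty] at hsum
    omega
  have htpos : ∀ x, 0 < w (ι x t) := fun x => by rw [hts x]; exact_mod_cast hs
  have hPpos : ∀ x, 0 < (placeOfEmb ι hw hK0 ht0 htpos x).ord t :=
    placeOfEmb_ord_pos ι hw hK0 ht0 htpos
  -- the map from orbits to places
  let φ : MulAction.orbitRel.Quotient (Subgroup.zpowers g) X → {v : Place K F // 0 < v.ord t} :=
    Quotient.lift (fun x => ⟨placeOfEmb ι hw hK0 ht0 htpos x, hPpos x⟩) (by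
      intro x y hxy
      obtain ⟨⟨h, hh⟩, rfl⟩ := (MulAction.orbitRel_apply.mp hxy)
      apply Subtype.ext
      exact placeOfEmb_eq_of_forall ι hw hK0 ht0 htpos _ _
        (fun f => ord_zpowers_smul ι g hg h hh y f))
  have hφsurj : Function.Surjective φ := by
    rintro ⟨v, hv⟩
    obtain ⟨x, hx⟩ := exists_nonneg_iff ι hw hι hcard hK hK0 ht ht0 htpos v hv
    refine ⟨Quotient.mk _ x, Subtype.ext ?_⟩
    exact (eq_placeOfEmb_of_forall ι hw hK0 ht0 htpos v x hx).symm
  have : Fintype {v : Place K F // 0 < v.ord t} := hfin.fintype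
  have h1 : ∑ q : MulAction.orbitRel.Quotient (Subgroup.zpowers g) X, Nat.card q.orbit =
      Fintype.card X := by
    rw [← Nat.card_eq_fintype_card,
      Nat.card_congr (MulAction.selfEquivSigmaOrbits' (Subgroup.zpowers g) X), Nat.card_sigma]
  have h2 : ((∑ v : {v : Place K F // 0 < v.ord t}, (v.1.ord t).toNat : ℕ) : ℤ) =
      Module.finrank K⟮t⟯ F := by
    rw [← hsum, Nat.cast_sum,
      Finset.sum_subtype hfin.toFinset (p := fun v => 0 < v.ord t) (fun v => by simp)
        (fun v => v.ord t)]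
    apply Finset.sum_congr rfl
    intro v _
    exact Int.toNat_of_nonneg v.2.le
  have hle : ∀ q : MulAction.orbitRel.Quotient (Subgroup.zpowers g) X,
      ((φ q).1.ord t).toNat ≤ Nat.card q.orbit := by
    intro q
    induction q using Quotient.inductionOn with
    | _ x =>
      have hb := placeOfEmb_ord_le ι hw hK0 ht0 htpos x
        (Nat.card (MulAction.orbit (Subgroup.zpowers g) x)) s (hts x) (hbound x)
      have he : MulAction.orbitRel.Quotient.orbit
          (Quotient.mk (MulAction.orbitRel (Subgroup.zpowers g) X) x) =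
          MulAction.orbit (Subgroup.zpowers g) x := MulAction.orbitRel.Quotient.orbit_mk x
      show ((placeOfEmb ι hw hK0 ht0 htpos x).ord t).toNat ≤ _
      rw [he]
      omega
  have hφinj : Function.Injective φ := by
    apply injective_of_sum_le φ hφsurj (fun v => (v.1.ord t).toNat) (fun q => Nat.card q.orbit)
    · intro q
      have : Nonempty q.orbit := (MulAction.orbitRel.Quotient.nonempty_orbit q).to_subtype
      exact Nat.card_pos
    · exact hle
    · rw [h1, hcard]
      exact_mod_cast h2.ge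
  have hsumeq : ∑ q : MulAction.orbitRel.Quotient (Subgroup.zpowers g) X, ((φ q).1.ord t).toNat
      = ∑ q : MulAction.orbitRel.Quotient (Subgroup.zpowers g) X, Nat.card q.orbit := by
    rw [h1, hcard]
    have h3 : ∑ q : MulAction.orbitRel.Quotient (Subgroup.zpowers g) X, ((φ q).1.ord t).toNat
        = ∑ v : {v : Place K F // 0 < v.ord t}, (v.1.ord t).toNat :=
      Fintype.sum_bijective φ ⟨hφinj, hφsurj⟩ _ _ (fun q => rfl)
    rw [h3]
    exact_mod_cast h2
  have heq : ∀ q : MulAction.orbitRel.Quotient (Subgroup.zpowers g) X,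
      ((φ q).1.ord t).toNat = Nat.card q.orbit := fun q =>
    (Finset.sum_eq_sum_iff_of_le (fun q _ => hle q)).mp hsumeq q (Finset.mem_univ q)
  obtain ⟨q, hq⟩ := hφsurj ⟨v, hv⟩
  induction q using Quotient.inductionOn with
  | _ x =>
    have hv' : placeOfEmb ι hw hK0 ht0 htpos x = v := congrArg Subtype.val hq
    refine ⟨x, ?_, ?_⟩
    · have h3 := heq (Quotient.mk _ x)
      have he : MulAction.orbitRel.Quotient.orbit
          (Quotient.mk (MulAction.orbitRel (Subgroup.zpowers g) X) x) =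
          MulAction.orbit (Subgroup.zpowers g) x := MulAction.orbitRel.Quotient.orbit_mk x
      rw [he, hq] at h3
      have h4 : ((v.ord t).toNat : ℤ) = v.ord t := Int.toNat_of_nonneg hv.le
      rw [← h4, h3]
    · obtain ⟨κ, hκ, -, h⟩ := exists_kappa ι hw hK0 ht0 htpos x
      exact ⟨κ, hκ, fun f hf => by rw [← hv']; exact h f hf⟩

end Field

section Subalgebra

variable {K F : Type*} [Field K] [Field F] [Algebra K F]

/-- **Refined G3**: same hypotheses as `S24.Generic.card_zeroPlaces_eq_card_orbits`; every place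
over `x = 0` has ramification index equal to the size of a `⟨g⟩`-orbit on the index set. -/
theorem ord_eq_card_orbit [IsAlgClosed K] [CharZero K]
    [Algebra.EssFiniteType K F] (htr : Algebra.trdeg K F = 1)
    (x : F) (hx : Transcendental K x) (hfin : FiniteDimensional K⟮x⟯ F)
    (F₀ : Subalgebra K F) (hF₀ : ∀ f : F, ∃ a b : F₀, (b : F) ≠ 0 ∧ f * b = a)
    (num den : F₀) (hden : den ≠ 0) (hxnd : x * den = num)
    {R : Type*} [CommRing R] [IsDomain R] (ordR : R → ℤ)
    (hmul : ∀ a b : R, a ≠ 0 → b ≠ 0 → ordR (a * b) = ordR a + ordR b)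
    (hadd : ∀ a b : R, a ≠ 0 → b ≠ 0 → a + b ≠ 0 → min (ordR a) (ordR b) ≤ ordR (a + b))
    {I : Type*} [Fintype I] (ρ : I → F₀ →+* R) (hρ_inj : ∀ i, Function.Injective (ρ i))
    (hρ_ne : Function.Injective ρ)
    (hcard : Fintype.card I = Module.finrank K⟮x⟯ F)
    (hK : ∀ i j (c : K), ρ i (algebraMap K F₀ c) = ρ j (algebraMap K F₀ c))
    (hnum : ∀ i j, ρ i num = ρ j num) (hden' : ∀ i j, ρ i den = ρ j den)
    (hconst : ∀ i (c : K), c ≠ 0 → ordR (ρ i (algebraMap K F₀ c)) = 0)
    (s : ℕ) (hs : 0 < s) (hxs : ∀ i, ordR (ρ i num) - ordR (ρ i den) = s)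
    {Γ : Type*} [Group Γ] [MulAction Γ I] (g : Γ)
    (hg : ∀ i (f : F₀), ordR (ρ (g • i) f) = ordR (ρ i f))
    (hdiv : ∀ i (f : F₀), f ≠ 0 →
      (s : ℤ) ∣ ordR (ρ i f) * (Function.minimalPeriod (g • ·) i : ℤ))
    (v : Place K F) (hv : 0 < v.ord x) :
    ∃ i : I, v.ord x = Nat.card (MulAction.orbit (Subgroup.zpowers g) i) := by
  have hx0 : x ≠ 0 := by
    rintro rfl
    exact hx (by simpa using (isAlgebraic_zero : IsAlgebraic K (0 : F)))
  obtain ⟨w, ι, hw, hι, hK', hK0, ht, hts, hg', hbound⟩ :=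
    Generic.G3Adapter.exists_data x hx0 F₀ hF₀ num den hden hxnd ordR hmul hadd ρ hρ_inj hρ_ne
      hK hnum hden' hconst s hs hxs g hg hdiv
  have hmodfin : Module.Finite K⟮x⟯ F := hfin
  have h0 : x - algebraMap K F 0 = x := by simp
  have hVfin : {v : Place K F | 0 < v.ord x}.Finite := by
    have := FF.zeros_finite htr hx 0
    rwa [h0] at this
  have hsum : ∑ v ∈ hVfin.toFinset, v.ord x = Module.finrank K⟮x⟯ F := by
    have := FF.sum_ord_zeros htr hx 0
    rw [h0] at this
    rw [← this, finsum_mem_eq_finite_toFinset_sum _ hVfin]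
  obtain ⟨i, hi, -⟩ := ord_eq_card_orbit_field x hVfin hsum w hw.1 hw.2 g ι hι hcard hK' hK0 ht
    s hs hts hg' hbound v hv
  exact ⟨i, hi⟩

end Subalgebra

end Fermat.Agent.S30.Branch
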